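import Mathlib

/-!
# S43 / Bas : BASIS + (c3)   (Mathlib only)

`V` a finite abelian group, `p` prime, `K ≥ 1`, `Iv ≤ V`.

* `tor p V`        : `V[p]`.
* `card_le_pow`    : `p^K V = 0 ⟹ #V ≤ #V[p]^K`.
* `pow_le_card`    : `V[p] ⊆ p^(K-1) V ⟹ #V[p]^K ≤ #V`.
* `exists_indep`   : (B1) `V[p] ⊆ p^(K-1) V`, `#V[p] = p^d * #(Iv ⊓ V[p])` ⟹ there are `v : Fin d → V` which are
                     `ℤ/p^K`-independent modulo `Iv`.
* `exists_gen`     : (B2) `p^K V = 0`, `#V[p] = p^r` ⟹ `V` is generated by `r` elements.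
* `card_sq_le`     : (B3) = (c3) `#Iv^2 ≤ #V` if `#V[p] = p^(2d)`, `#(Iv ⊓ V[p]) = p^d`.
-/

set_option autoImplicit false
set_option linter.style.haveILetI false

namespace Fermat.Agent.S43.Bas

open Finset

/-- `V[p]`. -/
def tor (p : ℕ) (V : Type*) [AddCommGroup V] : AddSubgroup V := (nsmulAddMonoidHom (α := V) p).ker

theorem mem_tor {p : ℕ} {V : Type*} [AddCommGroup V] {x : V} : x ∈ tor p V ↔ p • x = 0 := by
  rw [tor, AddMonoidHom.mem_ker]; rfl

theorem card_eq_tor_mul_range (p : ℕ) (G : Type*) [AddCommGroup G] :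
    Nat.card G = Nat.card (tor p G) * Nat.card (nsmulAddMonoidHom (α := G) p).range := by
  rw [AddSubgroup.card_eq_card_quotient_mul_card_addSubgroup (tor p G), mul_comm]
  congr 1
  exact Nat.card_congr (QuotientAddGroup.quotientKerEquivRange (nsmulAddMonoidHom (α := G) p)).toEquiv

/-- `p^K G = 0 ⟹ #G ≤ #G[p]^K`. -/
theorem card_le_pow (p : ℕ) : ∀ (K : ℕ) (G : Type*) [AddCommGroup G] [Finite G],
    (∀ x : G, p ^ K • x = 0) → Nat.card G ≤ Nat.card (tor p G) ^ K := by
  intro K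
  induction K with
  | zero =>
    intro G _ _ h
    have : Subsingleton G := ⟨fun a b => by
      have ha := h a; have hb := h b
      rw [pow_zero, one_smul] at ha hb
      rw [ha, hb]⟩
    rw [pow_zero]
    exact Finite.card_le_one_iff_subsingleton.mpr this
  | succ K ih =>
    intro G _ _ h
    set R := (nsmulAddMonoidHom (α := G) p).range with hR
    have hRk : ∀ x : R, p ^ K • x = 0 := by
      rintro ⟨_, y, rfl⟩
      apply Subtype.ext
      show p ^ K • (p • y) = 0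
      rw [← mul_smul, ← pow_succ]
      exact h y
    have h1 := ih R hRk
    have h2 : Nat.card (tor p R) ≤ Nat.card (tor p G) := by
      refine Nat.card_le_card_of_injective
        (fun x : tor p R => (⟨(x.1 : G), ?_⟩ : tor p G)) ?_
      · have := mem_tor.mp x.2
        rw [mem_tor]
        exact congrArg Subtype.val this
      · intro x y hxy
        apply Subtype.ext; apply Subtype.ext
        exact congrArg (fun z : tor p G => (z : G)) hxy
    rw [card_eq_tor_mul_range p G, pow_succ, mul_comm]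
    exact Nat.mul_le_mul (h1.trans (Nat.pow_le_pow_left h2 K)) le_rfl

/-- `G[p] ⊆ p^K G ⟹ #G[p]^(K+1) ≤ #G`. -/
theorem pow_succ_le_card (p : ℕ) : ∀ (K : ℕ) (G : Type*) [AddCommGroup G] [Finite G],
    (∀ x : G, p • x = 0 → ∃ y, x = p ^ K • y) → Nat.card (tor p G) ^ (K + 1) ≤ Nat.card G := by
  intro K
  induction K with
  | zero =>
    intro G _ _ _
    rw [zero_add, pow_one]
    exact Nat.card_le_card_of_injective _ Subtype.val_injective
  | succ K ih =>
    intro G _ _ h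
    set R := (nsmulAddMonoidHom (α := G) p).range with hR
    have hRk : ∀ x : R, p • x = 0 → ∃ y : R, x = p ^ K • y := by
      rintro ⟨x, hx⟩ hx0
      have hx0' : p • x = 0 := congrArg Subtype.val hx0
      obtain ⟨y, rfl⟩ := h x hx0'
      refine ⟨⟨p • y, y, rfl⟩, ?_⟩
      apply Subtype.ext
      show p ^ (K + 1) • y = p ^ K • (p • y)
      rw [← mul_smul, ← pow_succ]
    have h1 := ih R hRk
    have h2 : Nat.card (tor p G) ≤ Nat.card (tor p R) := by
      have hmem : ∀ x : tor p G, (x : G) ∈ R := by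
        intro x
        obtain ⟨y, hy⟩ := h x (mem_tor.mp x.2)
        refine ⟨p ^ K • y, ?_⟩
        show p • (p ^ K • y) = x
        rw [hy, ← mul_smul, ← pow_succ']
      refine Nat.card_le_card_of_injective
        (fun x : tor p G => (⟨⟨(x : G), hmem x⟩, ?_⟩ : tor p R)) ?_
      · rw [mem_tor]
        apply Subtype.ext
        exact mem_tor.mp x.2
      · intro x y hxy
        apply Subtype.ext
        exact congrArg (fun z : tor p R => ((z : R) : G)) hxy
    rw [card_eq_tor_mul_range p G, pow_succ, mul_comm]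
    exact Nat.mul_le_mul le_rfl ((Nat.pow_le_pow_left h2 (K + 1)).trans h1)


/-! ### linear algebra over `𝔽_p` -/

theorem finrank_eq_of_card {p : ℕ} [Fact p.Prime] {W : Type*} [AddCommGroup W] [Finite W]
    [Module (ZMod p) W] {r : ℕ} (hr : Nat.card W = p ^ r) : Module.finrank (ZMod p) W = r := by
  have h2 : Nat.card W = Nat.card (ZMod p) ^ Module.finrank (ZMod p) W :=
    Module.natCard_eq_pow_finrank
  rw [hr, Nat.card_zmod] at h2
  exact (Nat.pow_right_injective (Fact.out : p.Prime).two_le h2).symm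

theorem exists_indep_mod' {p : ℕ} [Fact p.Prime] {W : Type*} [AddCommGroup W] [Finite W]
    [Module (ZMod p) W] (J' : Submodule (ZMod p) W) {d : ℕ}
    (hd : Nat.card W = p ^ d * Nat.card J') :
    ∃ e : Fin d → W, ∀ c : Fin d → ℤ, ∑ i, c i • e i ∈ J' → ∀ i, (p : ℤ) ∣ c i := by
  have hJpos : 0 < Nat.card J' := Nat.card_pos
  have hcard : Nat.card (W ⧸ J') = p ^ d := by
    have h1 := Submodule.card_eq_card_quotient_mul_card J'
    rw [hd, mul_comm] at h1
    exact (Nat.eq_of_mul_eq_mul_left hJpos h1).symm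
  haveI : Finite (W ⧸ J') := Finite.of_surjective _ (Submodule.Quotient.mk_surjective J')
  have hfin : Module.finrank (ZMod p) (W ⧸ J') = d := finrank_eq_of_card hcard
  let b := Module.finBasisOfFinrankEq (ZMod p) (W ⧸ J') hfin
  choose e he using fun i => Submodule.Quotient.mk_surjective J' (b i)
  refine ⟨e, fun c hc i => ?_⟩
  have h3 : ∑ i, (c i : ZMod p) • b i = 0 := by
    have h0 : (Submodule.Quotient.mk (∑ i, c i • e i) : W ⧸ J') = 0 :=
      (Submodule.Quotient.mk_eq_zero J').mpr hc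
    rw [← h0, ← Submodule.mkQ_apply, map_sum]
    refine Finset.sum_congr rfl fun i _ => ?_
    rw [map_zsmul, Submodule.mkQ_apply, he i, Int.cast_smul_eq_zsmul]
  have h4 := Fintype.linearIndependent_iff.mp b.linearIndependent _ h3 i
  exact (ZMod.intCast_zmod_eq_zero_iff_dvd (c i) p).mp h4

/-- `W` killed by `p`, `J ≤ W`, `#W = p^d * #J`: there are `d` elements independent modulo `J`. -/
theorem exists_indep_mod {p : ℕ} [Fact p.Prime] {W : Type*} [AddCommGroup W] [Finite W]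
    (hW : ∀ x : W, p • x = 0) (J : AddSubgroup W) {d : ℕ} (hd : Nat.card W = p ^ d * Nat.card J) :
    ∃ e : Fin d → W, ∀ c : Fin d → ℤ, ∑ i, c i • e i ∈ J → ∀ i, (p : ℤ) ∣ c i := by
  letI inst : Module (ZMod p) W := AddCommGroup.zmodModule hW
  exact exists_indep_mod' (AddSubgroup.toZModSubmodule p J) hd

theorem exists_gen_mod' {p : ℕ} [Fact p.Prime] {W : Type*} [AddCommGroup W] [Finite W]
    [Module (ZMod p) W] {r : ℕ} (hr : Nat.card W = p ^ r) :
    ∃ e : Fin r → W, ∀ x : W, ∃ c : Fin r → ℤ, x = ∑ i, c i • e i := by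
  have hfin : Module.finrank (ZMod p) W = r := finrank_eq_of_card hr
  let b := Module.finBasisOfFinrankEq (ZMod p) W hfin
  refine ⟨fun i => b i, fun x => ⟨fun i => ((b.repr x i).val : ℤ), ?_⟩⟩
  conv_lhs => rw [← b.sum_repr x]
  refine Finset.sum_congr rfl fun i _ => ?_
  rw [← Int.cast_smul_eq_zsmul (ZMod p), Int.cast_natCast, ZMod.natCast_zmod_val]

/-- `W` killed by `p`, `#W = p^r`: `W` is generated by `r` elements. -/
theorem exists_gen_mod {p : ℕ} [Fact p.Prime] {W : Type*} [AddCommGroup W] [Finite W]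
    (hW : ∀ x : W, p • x = 0) {r : ℕ} (hr : Nat.card W = p ^ r) :
    ∃ e : Fin r → W, ∀ x : W, ∃ c : Fin r → ℤ, x = ∑ i, c i • e i := by
  letI inst : Module (ZMod p) W := AddCommGroup.zmodModule hW
  exact exists_gen_mod' hr

/-! ### (B1), (B2), (B3) -/

section Main

variable {V : Type*} [AddCommGroup V] [Finite V]

/-- **(B1)**, exponent `p^(K+1)`. -/
theorem exists_indep_succ {p K d : ℕ} [Fact p.Prime] (Iv : AddSubgroup V)
    (hdiv : ∀ x : V, p • x = 0 → ∃ y, x = p ^ K • y)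
    (hd : Nat.card (tor p V) = p ^ d * Nat.card ↥(Iv ⊓ tor p V)) :
    ∃ v : Fin d → V, ∀ c : Fin d → ℤ, ∑ i, c i • v i ∈ Iv →
      ∀ i, ((p ^ (K + 1) : ℕ) : ℤ) ∣ c i := by
  have hW : ∀ x : tor p V, p • x = 0 := fun x => Subtype.ext (mem_tor.mp x.2)
  have hJ : Nat.card ((Iv ⊓ tor p V).addSubgroupOf (tor p V)) = Nat.card ↥(Iv ⊓ tor p V) :=
    Nat.card_congr (AddSubgroup.addSubgroupOfEquivOfLe inf_le_right).toEquiv
  obtain ⟨e, he⟩ := exists_indep_mod hW ((Iv ⊓ tor p V).addSubgroupOf (tor p V)) (d := d)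
    (by rw [hJ]; exact hd)
  choose v hv using fun i => hdiv (e i : V) (mem_tor.mp (e i).2)
  have key : ∀ c : Fin d → ℤ, ∑ i, c i • (e i : V) ∈ Iv → ∀ i, (p : ℤ) ∣ c i := by
    intro c hc
    apply he c
    rw [AddSubgroup.mem_addSubgroupOf]
    have h1 : ((∑ i, c i • e i : tor p V) : V) = ∑ i, c i • (e i : V) := by
      rw [AddSubgroup.val_finsetSum]
      rfl
    rw [h1]
    exact ⟨hc, h1 ▸ (∑ i, c i • e i : tor p V).2⟩
  have main : ∀ j, j ≤ K + 1 → ∀ c : Fin d → ℤ, ∑ i, c i • v i ∈ Iv → ∀ i, (p : ℤ) ^ j ∣ c i := by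
    intro j
    induction j with
    | zero => intro _ c _ i; simp
    | succ j ih =>
      intro hj c hc
      have h1 := ih (by omega) c hc
      choose c' hc' using h1
      have h2 : ∑ i, c' i • (e i : V) ∈ Iv := by
        have h3 : ∑ i, c' i • (e i : V) = p ^ (K - j) • ∑ i, c i • v i := by
          rw [Finset.smul_sum]
          refine Finset.sum_congr rfl fun i _ => ?_
          rw [hv i, hc' i, ← natCast_zsmul, ← natCast_zsmul, smul_smul, smul_smul]
          congr 1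
          have hKj : K = (K - j) + j := by omega
          conv_lhs => rw [hKj]
          push_cast
          ring
        rw [h3]
        exact Iv.nsmul_mem hc _
      intro i
      rw [hc' i, pow_succ]
      exact mul_dvd_mul_left _ (key c' h2 i)
  refine ⟨v, fun c hc i => ?_⟩
  have := main (K + 1) le_rfl c hc i
  rwa [Nat.cast_pow]

/-- **(B1)**: `d` elements of `V` which are `ℤ/p^K`-independent modulo `Iv`. -/
theorem exists_indep {p K d : ℕ} [Fact p.Prime] (hK : 0 < K) (Iv : AddSubgroup V)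
    (hdiv : ∀ x : V, p • x = 0 → ∃ y, x = p ^ (K - 1) • y)
    (hd : Nat.card (tor p V) = p ^ d * Nat.card ↥(Iv ⊓ tor p V)) :
    ∃ v : Fin d → V, ∀ c : Fin d → ℤ, ∑ i, c i • v i ∈ Iv → ∀ i, ((p ^ K : ℕ) : ℤ) ∣ c i := by
  obtain ⟨K, rfl⟩ : ∃ K', K = K' + 1 := ⟨K - 1, by omega⟩
  exact exists_indep_succ Iv hdiv hd

/-- **(B2)**: `V` is generated by `r` elements, `#V[p] = p^r`. -/
theorem exists_gen {p K r : ℕ} [Fact p.Prime] (hV : ∀ x : V, p ^ K • x = 0)
    (hr : Nat.card (tor p V) = p ^ r) :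
    ∃ y : Fin r → V, ∀ h : V, ∃ c : Fin r → ℤ, h = ∑ i, c i • y i := by
  set R := (nsmulAddMonoidHom (α := V) p).range with hR
  have hQ : ∀ x : V ⧸ R, p • x = 0 := by
    intro x
    obtain ⟨x, rfl⟩ := QuotientAddGroup.mk_surjective x
    rw [← QuotientAddGroup.mk_nsmul, QuotientAddGroup.eq_zero_iff]
    exact ⟨x, rfl⟩
  have hcard : Nat.card (V ⧸ R) = p ^ r := by
    have h1 := card_eq_tor_mul_range p V
    have h2 := AddSubgroup.card_eq_card_quotient_mul_card_addSubgroup R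
    rw [h1, hr] at h2
    have hpos : 0 < Nat.card R := Nat.card_pos
    exact (Nat.eq_of_mul_eq_mul_right hpos h2).symm
  obtain ⟨e, he⟩ := exists_gen_mod hQ hcard
  choose y hy using fun i => QuotientAddGroup.mk_surjective (e i)
  have step : ∀ h : V, ∃ (c : Fin r → ℤ) (h' : V), h = ∑ i, c i • y i + p • h' := by
    intro h
    obtain ⟨c, hc⟩ := he (h : V ⧸ R)
    have h1 : ((h - ∑ i, c i • y i : V) : V ⧸ R) = 0 := by
      rw [QuotientAddGroup.mk_sub, hc, sub_eq_zero, ← QuotientAddGroup.mk'_apply, map_sum]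
      refine Finset.sum_congr rfl fun i _ => ?_
      rw [map_zsmul, QuotientAddGroup.mk'_apply, hy i]
    rw [QuotientAddGroup.eq_zero_iff] at h1
    obtain ⟨h', hh'⟩ := h1
    refine ⟨c, h', ?_⟩
    have : p • h' = h - ∑ i, c i • y i := hh'
    rw [this]; abel
  have iter : ∀ j : ℕ, ∀ h : V, ∃ (c : Fin r → ℤ) (h' : V), h = ∑ i, c i • y i + p ^ j • h' := by
    intro j
    induction j with
    | zero => intro h; exact ⟨0, h, by simp⟩
    | succ j ih =>
      intro h
      obtain ⟨c, h', hh⟩ := ih h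
      obtain ⟨c₂, h'', hh'⟩ := step h'
      refine ⟨fun i => c i + (p ^ j : ℕ) * c₂ i, h'', ?_⟩
      rw [hh, hh', smul_add, Finset.smul_sum, ← add_assoc, ← Finset.sum_add_distrib, ← mul_smul,
        ← pow_succ]
      congr 1
      refine Finset.sum_congr rfl fun i _ => ?_
      rw [add_smul, mul_smul, natCast_zsmul]
  refine ⟨y, fun h => ?_⟩
  obtain ⟨c, h', hh⟩ := iter K h
  exact ⟨c, by rw [hh, hV h', add_zero]⟩

theorem card_tor_subgroup_le (p : ℕ) (Iv : AddSubgroup V) :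
    Nat.card (tor p Iv) ≤ Nat.card ↥(Iv ⊓ tor p V) := by
  refine Nat.card_le_card_of_injective
    (fun x : tor p Iv => (⟨((x : Iv) : V),
      AddSubgroup.mem_inf.mpr ⟨(x : Iv).2, mem_tor.mpr ?_⟩⟩ : ↥(Iv ⊓ tor p V))) ?_
  · exact congrArg Subtype.val (mem_tor.mp x.2)
  · intro x y hxy
    apply Subtype.ext; apply Subtype.ext
    exact congrArg (fun z : ↥(Iv ⊓ tor p V) => (z : V)) hxy

/-- `#Iv ≤ p^(dK)`. -/
theorem card_le_of_tor {p K d : ℕ} (hV : ∀ x : V, p ^ K • x = 0) (Iv : AddSubgroup V)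
    (hd : Nat.card ↥(Iv ⊓ tor p V) = p ^ d) : Nat.card Iv ≤ p ^ (d * K) := by
  have h1 := card_le_pow p K Iv (fun x => Subtype.ext (hV x))
  refine h1.trans ?_
  rw [pow_mul, ← hd]
  exact Nat.pow_le_pow_left (card_tor_subgroup_le p Iv) K

/-- `#V = #V[p]^K` for a "free" `V`. -/
theorem card_eq_pow {p K : ℕ} (hK : 0 < K) (hV : ∀ x : V, p ^ K • x = 0)
    (hdiv : ∀ x : V, p • x = 0 → ∃ y, x = p ^ (K - 1) • y) :
    Nat.card V = Nat.card (tor p V) ^ K := by
  obtain ⟨K, rfl⟩ : ∃ K', K = K' + 1 := ⟨K - 1, by omega⟩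
  exact le_antisymm (card_le_pow p (K + 1) V hV) (pow_succ_le_card p K V hdiv)

/-- **(B3)** `= (c3)` of COUNT at exponent `p^K`, from the count at exponent `p`. -/
theorem card_sq_le {p K d : ℕ} (hK : 0 < K) (hV : ∀ x : V, p ^ K • x = 0) (Iv : AddSubgroup V)
    (hdiv : ∀ x : V, p • x = 0 → ∃ y, x = p ^ (K - 1) • y)
    (h2d : Nat.card (tor p V) = p ^ (2 * d)) (hd : Nat.card ↥(Iv ⊓ tor p V) = p ^ d) :
    Nat.card Iv ^ 2 ≤ Nat.card V := by
  rw [card_eq_pow hK hV hdiv, h2d]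
  calc Nat.card Iv ^ 2 ≤ (p ^ (d * K)) ^ 2 := Nat.pow_le_pow_left (card_le_of_tor hV Iv hd) 2
    _ = (p ^ (2 * d)) ^ K := by rw [← pow_mul, ← pow_mul]; congr 1; ring

/-- **BASIS**: everything together, in the shape of `Soc.soc` / `Soc.nak`. -/
theorem basis {p K d : ℕ} [Fact p.Prime] (hK : 0 < K) (hV : ∀ x : V, p ^ K • x = 0)
    (Iv : AddSubgroup V) (hdiv : ∀ x : V, p • x = 0 → ∃ y, x = p ^ (K - 1) • y)
    (h2d : Nat.card (tor p V) = p ^ (2 * d)) (hd : Nat.card ↥(Iv ⊓ tor p V) = p ^ d) :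
    (∃ v : Fin d → V, ∀ c : Fin d → ℤ, ∑ i, c i • v i ∈ Iv → ∀ i, ((p ^ K : ℕ) : ℤ) ∣ c i) ∧
    (∃ y : Fin (2 * d) → V, ∀ h : V, ∃ c : Fin (2 * d) → ℤ, h = ∑ i, c i • y i) ∧
    Nat.card Iv ^ 2 ≤ Nat.card V :=
  ⟨exists_indep hK Iv hdiv (by rw [h2d, hd, ← pow_add]; congr 1; ring), exists_gen hV h2d,
    card_sq_le hK hV Iv hdiv h2d hd⟩

end Main

end Fermat.Agent.S43.Bas
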